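import Mathlib
import Fermat.Agent.LT.T7.H816.IotaSpec
import Fermat.Agent.LT.T6.H267.InstExt
import Fermat.Agent.LT.T6.H116.InstSplit
import Fermat.Agent.LT.T7.H557.DescTriv

/-!
# Row LT, tower T7, leaf I.4 `OntoFinC816` (cut of helper816 of `IotaC305`) -- helper841, OFF-MAIN

    ontoFinC841 (K K') : Fermat.Agent.LT.T7.H816.OntoFinC816 K K'

A `σ_𝔸`-fixed adele of `K'` comes from `K_v` at the places over `v`.  VERBATIM against
`LT/T7/H816/IotaSpec.lean` (helper816@e81f893cb, sha256 c16fad08), UNCONDITIONAL.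

Proof.  Fix a place `w₀` over `v` (if there is none the statement is empty).
* base: `y_{w₀} = i_{w₀}(a)` for some `a ∈ K_v`.  If `w₀` is the only place over `v`: the closed
  leaf `T6.InstExtC` (helper267 `instExtC`): the fixed field of the local automorphism is the
  image of `K_v`; the local automorphism of `SigmaLocC305` (for `σ w₀ = w₀`) is the one of
  `InstExtC`, the local embedding of `ι` is the one of `InstExtC` (`ringHom_eqOF841`: two ring
  homomorphisms of `K_v` which scale the valuation and agree on the dense subfield `K` are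
  equal).  If there is a second place over `v`: `g e f = l` prime with `g ≥ 2` gives
  `e = f = 1`, closed leaf `T6.InstSplitC` (helper116 `instSplitC_h116`): `K_v ≃ K'_{w₀}`.
* step: if `(ι x)_w = y_w` then `(ι x)_{σ w} = y_{σ w}` (`s_w ∘ i_w = i_{σ w}`, `σ_𝔸 y = y`).
* the Galois group is generated by `σ` (prime order) and acts transitively on the places over `v`
  (`Ideal.exists_smul_eq_of_isGaloisGroup`).
-/

set_option autoImplicit false
set_option linter.unusedSectionVars false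
set_option linter.unusedVariables false
set_option linter.style.haveILetI false

open AutomorphicForm IsDedekindDomain NumberField WithZero
open scoped Pointwise

noncomputable section

namespace Fermat.Agent.LT.T7.H841

open Fermat.Agent.LT.H556 Fermat.Agent.LT.H556.A0 Fermat.Agent.LT.T7
open Fermat.Agent.LT.T7.H305 Fermat.Agent.LT.T7.H816

section OneField

variable {K : Type} [Field K] [NumberField K]

/-- Density of `K` in `K_v`, in valuation form. -/
theorem approxOF841 (v : HeightOneSpectrum (𝓞 K)) (x : v.adicCompletion K) (γ : ℤᵐ⁰)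
    (hγ : γ ≠ 0) : ∃ k : K, Valued.v (x - algebraMap K (v.adicCompletion K) k) < γ := by
  have hball : UniformSpace.ball x {p : v.adicCompletion K × v.adicCompletion K |
      Valued.v (p.2 - p.1) < γ} ∈ nhds x :=
    (nhds_basis_uniformity'
      (Fermat.Agent.LT.T6.H116.unif_basis_h116 (v.adicCompletion K)
        (HeightOneSpectrum.valuedAdicCompletion_surjective K v))).mem_of_mem hγ
  obtain ⟨k, hk⟩ := (HeightOneSpectrum.denseRange_algebraMap (K := K) v).mem_nhds hball
  refine ⟨k, ?_⟩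
  have hk' : Valued.v (algebraMap K (v.adicCompletion K) k - x) < γ := hk
  rw [← Valuation.map_neg, neg_sub]
  exact hk'

/-- Two ring homomorphisms of `K_v` into a valued field which scale the valuation by positive
powers and agree on `K` are equal. -/
theorem ringHom_eqOF841 {B : Type} [Field B] [Valued B ℤᵐ⁰] (v : HeightOneSpectrum (𝓞 K))
    (f g : v.adicCompletion K →+* B) (e e' : ℕ) (he : 0 < e) (he' : 0 < e')
    (hf : ∀ x, Valued.v (f x) = Valued.v x ^ e) (hg : ∀ x, Valued.v (g x) = Valued.v x ^ e')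
    (hfg : ∀ k : K, f (algebraMap K (v.adicCompletion K) k)
      = g (algebraMap K (v.adicCompletion K) k)) (x : v.adicCompletion K) :
    f x = g x := by
  by_contra hne
  have hγ : Valued.v (f x - g x) ≠ 0 := (Valuation.ne_zero_iff _).2 (sub_ne_zero.2 hne)
  have hmin : min (Valued.v (f x - g x)) 1 ≠ 0 := by
    rcases min_choice (Valued.v (f x - g x)) 1 with h | h
    · rw [h]; exact hγ
    · rw [h]; exact one_ne_zero
  obtain ⟨k, hk⟩ := approxOF841 v x _ hmin
  have h1 : Valued.v (x - algebraMap K (v.adicCompletion K) k) ≤ 1 :=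
    le_of_lt (lt_of_lt_of_le hk (min_le_right _ _))
  have h2 : Valued.v (x - algebraMap K (v.adicCompletion K) k) < Valued.v (f x - g x) :=
    lt_of_lt_of_le hk (min_le_left _ _)
  have e1 : f x - g x = f (x - algebraMap K (v.adicCompletion K) k)
      - g (x - algebraMap K (v.adicCompletion K) k) := by
    rw [map_sub, map_sub, hfg]
    ring
  have hfx : Valued.v (f (x - algebraMap K (v.adicCompletion K) k)) < Valued.v (f x - g x) := by
    rw [hf]
    exact lt_of_le_of_lt (pow_le_of_le_one zero_le h1 he.ne') h2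
  have hgx : Valued.v (g (x - algebraMap K (v.adicCompletion K) k)) < Valued.v (f x - g x) := by
    rw [hg]
    exact lt_of_le_of_lt (pow_le_of_le_one zero_le h1 he'.ne') h2
  have hlt : Valued.v (f x - g x) < Valued.v (f x - g x) := by
    conv_lhs => rw [e1]
    exact lt_of_le_of_lt (Valuation.map_sub _ _ _) (max_lt hfx hgx)
  exact lt_irrefl _ hlt

open scoped Classical in
/-- An adele with a prescribed component at `v`. -/
theorem exists_adeleOF841 (v : HeightOneSpectrum (𝓞 K)) (a : v.adicCompletion K) :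
    ∃ x : Adl K, T5.finHom v x = a :=
  ⟨(0, RestrictedProduct.single
      (fun v : HeightOneSpectrum (𝓞 K) => v.adicCompletionIntegers K) v a),
    RestrictedProduct.single_eq_same
      (fun v : HeightOneSpectrum (𝓞 K) => v.adicCompletionIntegers K) v a⟩

end OneField

section TwoFields

variable {K K' : Type} [Field K] [NumberField K] [Field K'] [NumberField K'] [Algebra K K']

/-- `PlaceOver` in the form of the T6 instances. -/
theorem placeOver_iffOF841 (v : HeightOneSpectrum (𝓞 K)) (w : HeightOneSpectrum (𝓞 K')) :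
    PlaceOver K K' v w ↔
      ∀ x : 𝓞 K, x ∈ v.asIdeal ↔ algebraMap (𝓞 K) (𝓞 K') x ∈ w.asIdeal := by
  rw [Fermat.Agent.LT.T7.H557.placeOver_iff_557]
  constructor
  · intro h x
    rw [h, Ideal.mem_comap]
  · intro h
    ext x
    rw [Ideal.mem_comap]
    exact h x

/-- A place containing the image of `v` lies over `v`. -/
theorem placeOver_of_leOF841 (v : HeightOneSpectrum (𝓞 K)) (w : HeightOneSpectrum (𝓞 K'))
    (h : ∀ x : 𝓞 K, x ∈ v.asIdeal → algebraMap (𝓞 K) (𝓞 K') x ∈ w.asIdeal) :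
    PlaceOver K K' v w := by
  rw [Fermat.Agent.LT.T7.H557.placeOver_iff_557]
  haveI := w.isPrime
  have hle : v.asIdeal ≤ Ideal.comap (algebraMap (𝓞 K) (𝓞 K')) w.asIdeal := fun x hx => by
    rw [Ideal.mem_comap]
    exact h x hx
  have hne : Ideal.comap (algebraMap (𝓞 K) (𝓞 K')) w.asIdeal ≠ ⊤ :=
    (Ideal.comap_isPrime (algebraMap (𝓞 K) (𝓞 K')) w.asIdeal).ne_top
  exact v.isMaximal.eq_of_le hne hle

/-- If there are two places over `v` in a Galois extension of prime degree, then `e = f = 1`. -/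
theorem split_dataOF841 (l : ℕ) (hcyc : IsCycExt K K' l) (v : HeightOneSpectrum (𝓞 K))
    (w₀ w₁ : HeightOneSpectrum (𝓞 K')) (h0 : PlaceOver K K' v w₀) (h1 : PlaceOver K K' v w₁)
    (hne : w₁ ≠ w₀) :
    Ideal.absNorm w₀.asIdeal = Ideal.absNorm v.asIdeal ∧
      ∃ x : 𝓞 K, x ∈ v.asIdeal ∧ algebraMap (𝓞 K) (𝓞 K') x ∉ w₀.asIdeal ^ 2 := by
  haveI := hcyc.galois
  haveI : w₀.asIdeal.LiesOver v.asIdeal := Fermat.Agent.LT.T7.H557.placeOver_liesOver_557 h0
  haveI : w₁.asIdeal.LiesOver v.asIdeal := Fermat.Agent.LT.T7.H557.placeOver_liesOver_557 h1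
  haveI := v.isPrime
  haveI := w₀.isPrime
  haveI := w₁.isPrime
  haveI : v.asIdeal.IsMaximal := v.isMaximal
  haveI : w₀.asIdeal.IsMaximal := w₀.isMaximal
  have h3 := Ideal.ncard_primesOver_mul_ramificationIdxIn_mul_inertiaDegIn v.asIdeal (𝓞 K')
    Gal(K'/K)
  rw [IsGalois.card_aut_eq_finrank, hcyc.degree] at h3
  have hn1 : (v.asIdeal.primesOver (𝓞 K')).ncard ≠ 1 := by
    intro h
    obtain ⟨a, ha⟩ := Set.ncard_eq_one.1 h
    have m0 : w₀.asIdeal ∈ v.asIdeal.primesOver (𝓞 K') := ⟨inferInstance, inferInstance⟩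
    have m1 : w₁.asIdeal ∈ v.asIdeal.primesOver (𝓞 K') := ⟨inferInstance, inferInstance⟩
    rw [ha, Set.mem_singleton_iff] at m0 m1
    exact hne (HeightOneSpectrum.ext (m1.trans m0.symm))
  have hdvd : (v.asIdeal.primesOver (𝓞 K')).ncard ∣ l := ⟨_, h3.symm⟩
  have hnl : (v.asIdeal.primesOver (𝓞 K')).ncard = l :=
    ((Nat.dvd_prime hcyc.prime).1 hdvd).resolve_left hn1
  have hef : v.asIdeal.ramificationIdxIn (𝓞 K') * v.asIdeal.inertiaDegIn (𝓞 K') = 1 := by
    rw [hnl] at h3
    exact Nat.eq_of_mul_eq_mul_left hcyc.prime.pos (by rw [h3, mul_one])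
  have he : v.asIdeal.ramificationIdxIn (𝓞 K') = 1 := Nat.eq_one_of_mul_eq_one_right hef
  have hf : v.asIdeal.inertiaDegIn (𝓞 K') = 1 := Nat.eq_one_of_mul_eq_one_left hef
  constructor
  · have hN := Ideal.absNorm_eq_pow_inertiaDeg'_of_liesOver w₀.asIdeal v.asIdeal v.isPrime
      v.ne_bot
    rw [Ideal.inertiaDeg'_eq_inertiaDeg v.asIdeal w₀.asIdeal,
      ← Ideal.inertiaDegIn_eq_inertiaDeg v.asIdeal w₀.asIdeal Gal(K'/K), hf, pow_one] at hN
    exact hN
  · have he' : v.asIdeal.ramificationIdx' w₀.asIdeal = 1 := by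
      rw [Ideal.ramificationIdx'_eq_ramificationIdx v.asIdeal w₀.asIdeal v.ne_bot,
        ← Ideal.ramificationIdxIn_eq_ramificationIdx v.asIdeal w₀.asIdeal Gal(K'/K), he]
    have hle : Ideal.map (algebraMap (𝓞 K) (𝓞 K')) v.asIdeal ≤ w₀.asIdeal := by
      rw [Ideal.map_le_iff_le_comap]
      intro x hx
      exact ((placeOver_iffOF841 v w₀).1 h0 x).1 hx
    have hn2 : ¬ Ideal.map (algebraMap (𝓞 K) (𝓞 K')) v.asIdeal ≤ w₀.asIdeal ^ 2 := by
      intro h
      exact ((Ideal.ramificationIdx'_ne_one_iff hle).2 h) he'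
    by_contra hcon
    apply hn2
    rw [Ideal.map_le_iff_le_comap]
    intro x hx
    rw [Ideal.mem_comap]
    by_contra hx2
    exact hcon ⟨x, hx, hx2⟩


/-- `σ` fixes `K`. -/
theorem sigma_fixOF841 (D : CompData K K') (hD : IsCompData D) (k : K) :
    D.s.σ (algebraMap K K' k) = algebraMap K K' k :=
  (hD.cyc.fixed _).1 ((hD.base _).2 ⟨k, rfl⟩)

/-- The generator as an automorphism of `K'` over `K`. -/
def genOF841 (D : CompData K K') (hD : IsCompData D) : K' ≃ₐ[K] K' :=
  AlgEquiv.ofRingEquiv (f := D.s.σ) (sigma_fixOF841 D hD)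

theorem genOF841_apply (D : CompData K K') (hD : IsCompData D) (x : K') :
    genOF841 D hD x = D.s.σ x := rfl

theorem gen_neOF841 (D : CompData K K') (hD : IsCompData D) (hcyc : IsCycExt K K' D.l) :
    genOF841 D hD ≠ 1 := by
  intro h
  obtain ⟨x, hx⟩ := hD.cyc.faithful 1 one_pos hcyc.prime.one_lt
  apply hx
  rw [pow_one]
  have := congrArg (fun t : K' ≃ₐ[K] K' => t x) h
  exact this

theorem gen_mem_powersOF841 (D : CompData K K') (hD : IsCompData D) (hcyc : IsCycExt K K' D.l)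
    (t : K' ≃ₐ[K] K') : t ∈ Submonoid.powers (genOF841 D hD) := by
  haveI := hcyc.galois
  haveI : Fact D.l.Prime := ⟨hcyc.prime⟩
  have hcard : Nat.card (K' ≃ₐ[K] K') = D.l := by
    rw [IsGalois.card_aut_eq_finrank, hcyc.degree]
  exact mem_powers_of_prime_card hcard (gen_neOF841 D hD hcyc)

theorem gen_mem_zpowersOF841 (D : CompData K K') (hD : IsCompData D)
    (hcyc : IsCycExt K K' D.l) (t : K' ≃ₐ[K] K') : t ∈ Subgroup.zpowers (genOF841 D hD) := by
  haveI := hcyc.galois
  haveI : Fact D.l.Prime := ⟨hcyc.prime⟩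
  have hcard : Nat.card (K' ≃ₐ[K] K') = D.l := by
    rw [IsGalois.card_aut_eq_finrank, hcyc.degree]
  exact mem_zpowers_of_prime_card hcard (gen_neOF841 D hD hcyc)

/-- The image of a place under `σ`. -/
theorem exists_placeRelOF841 (s : T5.AdelicAut K') (w : HeightOneSpectrum (𝓞 K')) :
    ∃ w' : HeightOneSpectrum (𝓞 K'), T5.PlaceRel s w w' := by
  haveI := w.isPrime
  refine ⟨⟨Ideal.map (NumberField.RingOfIntegers.mapRingEquiv s.σ) w.asIdeal,
    Ideal.map_isPrime_of_equiv _, ?_⟩, rfl⟩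
  intro h
  apply w.ne_bot
  exact (Ideal.map_eq_bot_iff_of_injective
    (NumberField.RingOfIntegers.mapRingEquiv s.σ).injective).1 h

/-- The action of the generator on ideals is the map of `PlaceRel`. -/
theorem smul_eq_mapOF841 (D : CompData K K') (hD : IsCompData D) (I : Ideal (𝓞 K')) :
    genOF841 D hD • I = Ideal.map (NumberField.RingOfIntegers.mapRingEquiv D.s.σ) I := by
  rw [Ideal.pointwise_smul_def]
  rfl

/-- `σ w` lies over `v` if `w` does. -/
theorem placeOver_relOF841 (D : CompData K K') (hD : IsCompData D)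
    (v : HeightOneSpectrum (𝓞 K)) (w w' : HeightOneSpectrum (𝓞 K'))
    (hw : PlaceOver K K' v w) (hr : T5.PlaceRel D.s w w') : PlaceOver K K' v w' := by
  intro x y hxy
  have hr' : w'.asIdeal = Ideal.map (NumberField.RingOfIntegers.mapRingEquiv D.s.σ) w.asIdeal :=
    hr
  rw [hr', Ideal.mem_map_of_equiv]
  constructor
  · intro hx
    refine ⟨algebraMap (𝓞 K) (𝓞 K') x, ((Fermat.Agent.LT.T7.H841.placeOver_iffOF841 v w).1 hw x).1 hx, ?_⟩
    apply NumberField.RingOfIntegers.ext
    rw [NumberField.RingOfIntegers.mapRingEquiv_apply, hxy]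
    exact sigma_fixOF841 D hD _
  · rintro ⟨z, hz, hzy⟩
    have hz' : z = algebraMap (𝓞 K) (𝓞 K') x := by
      apply (NumberField.RingOfIntegers.mapRingEquiv D.s.σ).injective
      rw [hzy]
      apply NumberField.RingOfIntegers.ext
      rw [NumberField.RingOfIntegers.mapRingEquiv_apply, hxy]
      exact (sigma_fixOF841 D hD _).symm
    rw [hz'] at hz
    exact ((Fermat.Agent.LT.T7.H841.placeOver_iffOF841 v w).1 hw x).2 hz


/-- **The step**: from `w` to `σ w`. -/
theorem stepOF841 (D : CompData K K') (hD : IsCompData D) (hS : SigmaLocC305 K')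
    (ι : Adl K →+* Adl K') (hι : IsPreBase816 ι) (y : Adl K') (hy : D.s.σA y = y)
    (v : HeightOneSpectrum (𝓞 K)) (x : Adl K) (w w' : HeightOneSpectrum (𝓞 K'))
    (hw : PlaceOver K K' v w) (hr : T5.PlaceRel D.s w w')
    (hQ : T5.finHom w (ι x) = T5.finHom w y) :
    T5.finHom w' (ι x) = T5.finHom w' y := by
  have hw' := placeOver_relOF841 D hD v w w' hw hr
  obtain ⟨sw, hsw1, hsw2, hsw3⟩ := (hS D.s).1 w w' hr
  obtain ⟨e, i, he, hi1, hi2, hi3⟩ := hι.fin v w hw
  obtain ⟨e', i', he', hi1', hi2', hi3'⟩ := hι.fin v w' hw'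
  have hkey : ∀ a : v.adicCompletion K, i' a = sw (i a) := by
    intro a
    exact ringHom_eqOF841 v i' ((sw : w.adicCompletion K' →+* w'.adicCompletion K').comp i)
      e' e he' he hi2'
      (fun z => by
        rw [RingHom.comp_apply]
        change Valued.v (sw (i z)) = _
        rw [hsw2, hi2])
      (fun k => by
        rw [RingHom.comp_apply, hi1', hi1]
        change _ = sw _
        rw [hsw1, sigma_fixOF841 D hD]) a
  calc T5.finHom w' (ι x) = i' (T5.finHom v x) := hi3' x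
    _ = sw (i (T5.finHom v x)) := hkey _
    _ = sw (T5.finHom w (ι x)) := by rw [hi3 x]
    _ = sw (T5.finHom w y) := by rw [hQ]
    _ = T5.finHom w' (D.s.σA y) := (hsw3 y).symm
    _ = T5.finHom w' y := by rw [hy]

/-- **The base, non-split case** (`w₀` is the only place over `v`): closed leaf `T6.InstExtC`. -/
theorem base_uniqueOF841 (D : CompData K K') (hD : IsCompData D) (hcyc : IsCycExt K K' D.l)
    (hS : SigmaLocC305 K') (ι : Adl K →+* Adl K') (hι : IsPreBase816 ι) (y : Adl K')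
    (hy : D.s.σA y = y) (v : HeightOneSpectrum (𝓞 K)) (w₀ : HeightOneSpectrum (𝓞 K'))
    (h0 : PlaceOver K K' v w₀) (huniq : ∀ w, PlaceOver K K' v w → w = w₀) :
    ∃ x : Adl K, T5.finHom w₀ (ι x) = T5.finHom w₀ y := by
  haveI := hcyc.galois
  obtain ⟨e, i', sw', hi', hsw', hext, -⟩ :=
    Fermat.Agent.LT.T6.H267.instExtC K K' (genOF841 D hD)
      (gen_mem_zpowersOF841 D hD hcyc) (by rw [hcyc.degree]; exact hcyc.prime) v w₀
      ((placeOver_iffOF841 v w₀).1 h0)
      (fun w' hw' => huniq w' (placeOver_of_leOF841 v w' hw'))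
  obtain ⟨w', hr⟩ := exists_placeRelOF841 D.s w₀
  have hw' := placeOver_relOF841 D hD v w₀ w' h0 hr
  have hww : w' = w₀ := huniq w' hw'
  rw [hww] at hr
  obtain ⟨sw, hsw1, hsw2, hsw3⟩ := (hS D.s).1 w₀ w₀ hr
  have hfix : sw' (T5.finHom w₀ y) = T5.finHom w₀ y := by
    have h1 : sw (T5.finHom w₀ y) = T5.finHom w₀ y := by rw [← hsw3 y, hy]
    have h2 := ringHom_eqOF841 (K := K') w₀
      (sw' : w₀.adicCompletion K' →+* w₀.adicCompletion K')
      (sw : w₀.adicCompletion K' →+* w₀.adicCompletion K') 1 1 one_pos one_pos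
      (fun z => by rw [pow_one]; exact hext.val_s z) (fun z => by rw [pow_one]; exact hsw2 z)
      (fun k => by
        change sw' _ = sw _
        rw [hsw', hsw1]
        rfl) (T5.finHom w₀ y)
    change sw' _ = sw _ at h2
    rw [h2, h1]
  obtain ⟨a, ha⟩ := hext.cyc.fixed _ hfix
  obtain ⟨e₁, i, he₁, hi1, hi2, hi3⟩ := hι.fin v w₀ h0
  obtain ⟨x, hx⟩ := exists_adeleOF841 v a
  refine ⟨x, ?_⟩
  rw [hi3 x, hx, ← ha]
  exact ringHom_eqOF841 v i i' e₁ e he₁ hext.e_pos hi2 hext.val_i
    (fun k => by rw [hi1, hi']) a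

/-- **The base, split case**: closed leaf `T6.InstSplitC`. -/
theorem base_splitOF841 (D : CompData K K') (hcyc : IsCycExt K K' D.l)
    (ι : Adl K →+* Adl K') (hι : IsPreBase816 ι) (y : Adl K')
    (v : HeightOneSpectrum (𝓞 K)) (w₀ w₁ : HeightOneSpectrum (𝓞 K'))
    (h0 : PlaceOver K K' v w₀) (h1 : PlaceOver K K' v w₁) (hne : w₁ ≠ w₀) :
    ∃ x : Adl K, T5.finHom w₀ (ι x) = T5.finHom w₀ y := by
  obtain ⟨hN, hπ⟩ := split_dataOF841 D.l hcyc v w₀ w₁ h0 h1 hne
  obtain ⟨i', hi', hv'⟩ := Fermat.Agent.LT.T6.H116.instSplitC_h116 K K' v w₀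
    ((placeOver_iffOF841 v w₀).1 h0) hN hπ
  obtain ⟨e₁, i, he₁, hi1, hi2, hi3⟩ := hι.fin v w₀ h0
  obtain ⟨x, hx⟩ := exists_adeleOF841 v (i'.symm (T5.finHom w₀ y))
  refine ⟨x, ?_⟩
  rw [hi3 x, hx]
  have h := ringHom_eqOF841 v i (i' : v.adicCompletion K →+* w₀.adicCompletion K') e₁ 1 he₁
    one_pos hi2 (fun z => by rw [pow_one]; exact hv' z)
    (fun k => by rw [hi1]; exact (hi' k).symm) (i'.symm (T5.finHom w₀ y))
  rw [h]
  exact i'.apply_symm_apply _

/-- **The chain** `w₀, σ w₀, σ² w₀, …`. -/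
theorem chainOF841 (D : CompData K K') (hD : IsCompData D) (hS : SigmaLocC305 K')
    (ι : Adl K →+* Adl K') (hι : IsPreBase816 ι) (y : Adl K') (hy : D.s.σA y = y)
    (v : HeightOneSpectrum (𝓞 K)) (x : Adl K) (w₀ : HeightOneSpectrum (𝓞 K'))
    (h0 : PlaceOver K K' v w₀) (hQ : T5.finHom w₀ (ι x) = T5.finHom w₀ y) (k : ℕ) :
    ∃ u : HeightOneSpectrum (𝓞 K'), u.asIdeal = (genOF841 D hD ^ k) • w₀.asIdeal ∧
      PlaceOver K K' v u ∧ T5.finHom u (ι x) = T5.finHom u y := by
  induction k with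
  | zero => exact ⟨w₀, by rw [pow_zero, one_smul], h0, hQ⟩
  | succ k ih =>
    obtain ⟨u, hu, hvu, hQu⟩ := ih
    obtain ⟨u', hr⟩ := exists_placeRelOF841 D.s u
    refine ⟨u', ?_, placeOver_relOF841 D hD v u u' hvu hr,
      stepOF841 D hD hS ι hι y hy v x u u' hvu hr hQu⟩
    have hr' : u'.asIdeal
        = Ideal.map (NumberField.RingOfIntegers.mapRingEquiv D.s.σ) u.asIdeal := hr
    rw [hr', ← smul_eq_mapOF841 D hD, hu, ← mul_smul, ← pow_succ']

/-- The equation lemmas of the definition of this file are realised HERE. -/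
theorem eqns_realisedOF841 : True := by
  have _a := @genOF841.eq_1
  have _b := @genOF841.eq_def
  have _c := @genOF841.eq_unfold
  trivial

end TwoFields

/-- **LEAF I.4 `OntoFinC816`** (cut of helper816 of `H305.IotaC305`), VERBATIM, unconditional:
a `σ_𝔸`-fixed adele of `K'` comes from `K_v` at the places over `v`. -/
theorem ontoFinC841 (K K' : Type) [Field K] [NumberField K] [Field K'] [NumberField K']
    [Algebra K K'] : OntoFinC816 K K' := by
  intro D hD hcyc hT hS ι hι y hy v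
  by_cases hex : ∃ w₀, PlaceOver K K' v w₀
  swap
  · exact ⟨0, fun w hw => absurd ⟨w, hw⟩ hex⟩
  obtain ⟨w₀, h0⟩ := hex
  have hbase : ∃ x : Adl K, T5.finHom w₀ (ι x) = T5.finHom w₀ y := by
    by_cases huniq : ∀ w, PlaceOver K K' v w → w = w₀
    · exact base_uniqueOF841 D hD hcyc hS ι hι y hy v w₀ h0 huniq
    · simp only [not_forall] at huniq
      obtain ⟨w₁, h1, hne⟩ := huniq
      exact base_splitOF841 D hcyc ι hι y v w₀ w₁ h0 h1 hne
  obtain ⟨x, hx⟩ := hbase
  refine ⟨x, fun w hw => ?_⟩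
  haveI := hcyc.galois
  haveI : w₀.asIdeal.LiesOver v.asIdeal := Fermat.Agent.LT.T7.H557.placeOver_liesOver_557 h0
  haveI : w.asIdeal.LiesOver v.asIdeal := Fermat.Agent.LT.T7.H557.placeOver_liesOver_557 hw
  haveI := w₀.isPrime
  haveI := w.isPrime
  obtain ⟨τ, hτ⟩ := Ideal.exists_smul_eq_of_isGaloisGroup v.asIdeal w₀.asIdeal w.asIdeal
    (K' ≃ₐ[K] K')
  obtain ⟨k, hk⟩ := gen_mem_powersOF841 D hD hcyc τ
  obtain ⟨u, hu, -, hQu⟩ := chainOF841 D hD hS ι hι y hy v x w₀ h0 hx k
  have huw : u = w := by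
    apply HeightOneSpectrum.ext
    rw [hu, ← hτ, ← hk]
  rw [← huw]
  exact hQu

end Fermat.Agent.LT.T7.H841

end
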