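import Mathlib
import Fermat.Agent.LT.T7.H305.MatchCut
import Fermat.Agent.LT.T7.H159.GoodUnit
import Fermat.Agent.LT.H129.Local

/-!
# Row LT, tower T7, asset leaf C2.7.6 `SuppDownC305` (second cut of helper305) -- helper841,
OFF-MAIN

    suppDownC841 (K) : Fermat.Agent.LT.T7.H305.SuppDownC305 K

VERBATIM against `LT/T7/H305/MatchCut.lean` (helper305@56ddcdc02, sha256 0f302b81),
UNCONDITIONAL.  If `γ` is good outside `S` and `x⁻¹ γ x` is in `GL₂(𝒪_v)` for `v ∉ S`, then
`x = t x'` with `t ∈ T_𝔸(γ)` and `x'_v ∈ GL₂(𝒪_v)` for `v ∉ S`.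

Proof.  `x` and `x⁻¹` are integral outside a finite set `B` of places.  Induction on `B`: at a
place `v₀ ∈ B \ S` the local statement (helper159 `goodUnit_down159`) gives `x_{v₀} = t₀ u₀` with
`t₀` in the centraliser of `γ` in `GL₂(K_{v₀})` and `u₀ ∈ GL₂(𝒪_{v₀})`; the local element
`t₁ = locFin129 v₀ t₀` (helper129) is in `T_𝔸(γ)`, `t₁⁻¹ x` is integral at `v₀` and has the
components of `x` elsewhere.
-/

set_option autoImplicit false
set_option linter.unusedSectionVars false
set_option linter.unusedVariables false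
set_option linter.style.haveILetI false

open AutomorphicForm IsDedekindDomain NumberField MeasureTheory

noncomputable section

namespace Fermat.Agent.LT.T7.H841

open Fermat.Agent.LT.H556 Fermat.Agent.LT.H556.A0 Fermat.Agent.LT.T7
open Fermat.Agent.LT.T7.H305 Fermat.Agent.LT.H129

variable {K : Type} [Field K] [NumberField K]

/-- `g` and `g⁻¹` are integral at `v`. -/
def IsUnitAtSD841 (v : HeightOneSpectrum (𝓞 K)) (g : G K) : Prop :=
  IsIntegralAt v g ∧ IsIntegralAt v g⁻¹

theorem isUnitAt_iffSD841 (v : HeightOneSpectrum (𝓞 K)) (g : G K) :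
    IsUnitAtSD841 v g ↔ T6.InU 0 (finCompHom129 v g) := by
  constructor
  · rintro ⟨h1, h2⟩
    refine Fermat.Agent.LT.T6.H288.H546.inU_zero_of_integral_h546 _ ?_ ?_
    · intro i j
      exact (HeightOneSpectrum.mem_adicCompletionIntegers (𝓞 K) K v).1 (h1 i j)
    · intro i j
      rw [← map_inv]
      exact (HeightOneSpectrum.mem_adicCompletionIntegers (𝓞 K) K v).1 (h2 i j)
  · intro h
    have hinv : T6.InU 0 (finCompHom129 v g)⁻¹ := by
      intro i j
      refine ⟨(h i j).2, ?_⟩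
      rw [inv_inv]
      exact (h i j).1
    constructor
    · intro i j
      exact (HeightOneSpectrum.mem_adicCompletionIntegers (𝓞 K) K v).2
        (Fermat.Agent.LT.T6.H687.entry_le_one_of_inU_h687 h i j)
    · intro i j
      have := Fermat.Agent.LT.T6.H687.entry_le_one_of_inU_h687 hinv i j
      rw [← map_inv] at this
      exact (HeightOneSpectrum.mem_adicCompletionIntegers (𝓞 K) K v).2 this

/-- `x` and `x⁻¹` are integral at almost all places. -/
theorem finite_nonunitSD841 (g : G K) :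
    {v : HeightOneSpectrum (𝓞 K) | ¬ IsUnitAtSD841 v g}.Finite := by
  have hint : ∀ h : G K, {v : HeightOneSpectrum (𝓞 K) | ¬ IsIntegralAt v h}.Finite := by
    intro h
    have hsub : {v : HeightOneSpectrum (𝓞 K) | ¬ IsIntegralAt v h} ⊆
        ⋃ p : Fin 2 × Fin 2, {v : HeightOneSpectrum (𝓞 K) |
          ¬ (((h : Matrix (Fin 2) (Fin 2) (Adl K)) p.1 p.2).2 v ∈ v.adicCompletionIntegers K)} := by
      intro v hv
      simp only [Set.mem_ofPred_eq, IsIntegralAt, not_forall] at hv
      obtain ⟨i, j, hij⟩ := hv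
      exact Set.mem_iUnion.2 ⟨(i, j), hij⟩
    refine Set.Finite.subset (Set.finite_iUnion fun p => ?_) hsub
    exact Filter.eventually_cofinite.1 ((h : Matrix (Fin 2) (Fin 2) (Adl K)) p.1 p.2).2.2
  refine Set.Finite.subset ((hint g).union (hint g⁻¹)) ?_
  intro v hv
  simp only [Set.mem_ofPred_eq, IsUnitAtSD841, not_and_or] at hv
  exact hv

/-- The component of a rational element. -/
theorem finComp_ratGSD841 (v : HeightOneSpectrum (𝓞 K)) (γ : GL (Fin 2) K) :
    finCompHom129 v (T5.ratG γ) = locG305 v γ := by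
  apply Units.ext
  ext i j
  rfl

/-- Membership in the adelic centraliser. -/
theorem mem_tASD841 (γ : GL (Fin 2) K) (t : G K) :
    t ∈ tA305 (T5.AdelicAut.id K) γ ↔ t * T5.ratG γ = T5.ratG γ * t := by
  have hid : (T5.AdelicAut.id K).onG t = t := by
    apply Units.ext
    ext i j
    rfl
  change t⁻¹ * T5.ratG γ * (T5.AdelicAut.id K).onG t = T5.ratG γ ↔ _
  rw [hid]
  constructor
  · intro h
    calc t * T5.ratG γ = t * (t⁻¹ * T5.ratG γ * t) := by rw [h]
      _ = T5.ratG γ * t := by group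
  · intro h
    calc t⁻¹ * T5.ratG γ * t = t⁻¹ * (T5.ratG γ * t) := by group
      _ = t⁻¹ * (t * T5.ratG γ) := by rw [h]
      _ = T5.ratG γ := by group

/-- A local element which commutes with `γ` at its place is in the adelic centraliser. -/
theorem locFin_mem_tASD841 (γ : GL (Fin 2) K) (v₀ : HeightOneSpectrum (𝓞 K))
    (t₀ : GL (Fin 2) (v₀.adicCompletion K)) (h : t₀ * locG305 v₀ γ = locG305 v₀ γ * t₀) :
    locFin129 v₀ t₀ ∈ tA305 (T5.AdelicAut.id K) γ := by
  rw [mem_tASD841]
  apply G_ext129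
  · intro w
    rw [map_mul, map_mul, infCompHom129_locFin129, one_mul, mul_one]
  · intro v
    rw [map_mul, map_mul]
    by_cases hv : v = v₀
    · subst hv
      rw [finCompHom129_locFin129, finComp_ratGSD841, h]
    · rw [finCompHom129_locFin129_of_ne v₀ t₀ hv, one_mul, mul_one]

/-- **The induction.** -/
theorem suppDown_auxSD841 (γ : GL (Fin 2) K) (S : Finset (HeightOneSpectrum (𝓞 K)))
    (hγ : GoodOut305 S γ) (B : Finset (HeightOneSpectrum (𝓞 K))) :
    ∀ x : G K, (∀ v : HeightOneSpectrum (𝓞 K), v ∉ S → v ∉ B → IsUnitAtSD841 v x) →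
      (∀ v : HeightOneSpectrum (𝓞 K), v ∉ S →
        T6.InU 0 (finCompHom129 v (x⁻¹ * T5.ratG γ * x))) →
      ∃ t : G K, t ∈ tA305 (T5.AdelicAut.id K) γ ∧
        ∀ v : HeightOneSpectrum (𝓞 K), v ∉ S → IsUnitAtSD841 v (t⁻¹ * x) := by
  classical
  induction B using Finset.induction_on with
  | empty =>
    intro x hx _
    refine ⟨1, Subgroup.one_mem _, fun v hv => ?_⟩
    rw [inv_one, one_mul]
    exact hx v hv (Finset.notMem_empty v)
  | insert v₀ B' hv₀ ih =>
    intro x hx hc
    by_cases hS : v₀ ∈ S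
    · refine ih x (fun v hv hv' => hx v hv ?_) hc
      rw [Finset.mem_insert, not_or]
      exact ⟨fun h => hv (h ▸ hS), hv'⟩
    · have hloc := hc v₀ hS
      rw [map_mul, map_mul, map_inv, finComp_ratGSD841] at hloc
      obtain ⟨t₀, u₀, hcomm, hu₀, hxu⟩ := Fermat.Agent.LT.T7.H159.goodUnit_down159
        (locG305 v₀ γ) (finCompHom129 v₀ x) (hγ v₀ hS).1 (hγ v₀ hS).2 hloc
      have ht₁ : locFin129 v₀ t₀ ∈ tA305 (T5.AdelicAut.id K) γ :=
        locFin_mem_tASD841 γ v₀ t₀ hcomm
      have hcomm₁ := (mem_tASD841 γ _).1 ht₁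
      have hx' : ∀ v : HeightOneSpectrum (𝓞 K), v ∉ S → v ∉ B' →
          IsUnitAtSD841 v ((locFin129 v₀ t₀)⁻¹ * x) := by
        intro v hv hv'
        rw [isUnitAt_iffSD841, map_mul, map_inv]
        by_cases hvv : v = v₀
        · subst hvv
          rw [finCompHom129_locFin129, hxu, inv_mul_cancel_left]
          exact hu₀
        · rw [finCompHom129_locFin129_of_ne v₀ t₀ hvv, inv_one, one_mul, ← isUnitAt_iffSD841]
          refine hx v hv ?_
          rw [Finset.mem_insert, not_or]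
          exact ⟨hvv, hv'⟩
      have hc' : ∀ v : HeightOneSpectrum (𝓞 K), v ∉ S →
          T6.InU 0 (finCompHom129 v
            (((locFin129 v₀ t₀)⁻¹ * x)⁻¹ * T5.ratG γ * ((locFin129 v₀ t₀)⁻¹ * x))) := by
        intro v hv
        have e : ((locFin129 v₀ t₀)⁻¹ * x)⁻¹ * T5.ratG γ * ((locFin129 v₀ t₀)⁻¹ * x)
            = x⁻¹ * T5.ratG γ * x := by
          calc ((locFin129 v₀ t₀)⁻¹ * x)⁻¹ * T5.ratG γ * ((locFin129 v₀ t₀)⁻¹ * x)
              = x⁻¹ * (locFin129 v₀ t₀ * T5.ratG γ) * (locFin129 v₀ t₀)⁻¹ * x := by group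
            _ = x⁻¹ * (T5.ratG γ * locFin129 v₀ t₀) * (locFin129 v₀ t₀)⁻¹ * x := by
                rw [hcomm₁]
            _ = x⁻¹ * T5.ratG γ * x := by group
        rw [e]
        exact hc v hv
      obtain ⟨t', ht', hQ⟩ := ih ((locFin129 v₀ t₀)⁻¹ * x) hx' hc'
      refine ⟨locFin129 v₀ t₀ * t', Subgroup.mul_mem _ ht₁ ht', fun v hv => ?_⟩
      have e : (locFin129 v₀ t₀ * t')⁻¹ * x = t'⁻¹ * ((locFin129 v₀ t₀)⁻¹ * x) := by group
      rw [e]
      exact hQ v hv

/-- The equation lemmas of the definition of this file are realised HERE. -/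
theorem eqns_realisedSD841 : True := by
  have _a := @IsUnitAtSD841.eq_1
  have _b := @IsUnitAtSD841.eq_def
  have _c := @IsUnitAtSD841.eq_unfold
  trivial

/-- **ASSET LEAF C2.7.6 `SuppDownC305`** (second cut of helper305), VERBATIM, unconditional. -/
theorem suppDownC841 (K : Type) [Field K] [NumberField K] : SuppDownC305 K := by
  intro γ S hγ x hx
  obtain ⟨t, ht, hQ⟩ := suppDown_auxSD841 γ S hγ (finite_nonunitSD841 x).toFinset x
    (fun v _ hv' => by
      by_contra hcon
      exact hv' ((Set.Finite.mem_toFinset _).2 hcon))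
    (fun v hv => (isUnitAt_iffSD841 v _).1 (hx v hv))
  exact ⟨t, ht, fun v hv => hQ v hv⟩

end Fermat.Agent.LT.T7.H841

end
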